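import Mathlib
import Fermat.Agent.SS.Dict.Descend
import Fermat.Agent.SS.Val.ModFrob2
import Fermat.Agent.G.FF.Hecke

/-!
# Program T (S35), (G4) : descent `ℚ̄ → E` of the two norm relations (prefix `s35wd_`)

`F_E(N) = modularFunctionFieldFullC E N`, `F(N) = modularFunctionFieldBar N`,
`up = ssdUp E N : F_E(N) → F(N)` (coefficientwise base change).  EVERYTHING IS LEVEL-GENERIC
(`M`, `q` arbitrary non-zero : no primality, no coprimality), so it serves S35 (`q ∤ M`) and S36
(`q ∣ M`) alike.

* `s35wd_norm_baseChange`, `s35wd_baseChange_of_li` : (abstract) finiteness, degree and norm commute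
  with a base change `K → K'`, `L → L'` of field extensions which preserves linear independence and
  whose image spans;
* `s35wd_linearIndependent_up` : (abstract) the tower form of linear disjointness;
* `s35wd_li_const` : `F_E(N)` and `ℚ̄` are linearly disjoint over `E` in `F(N)` (coefficientwise);
* `s35wd_up_norm_gen` : for ANY compatible pair `ψE : F_E(N) → F_E(N')`, `ψ : F(N) → F(N')` with
  `F(N')` finite over `ψ F(N)` : `F_E(N')` is finite over `ψE F_E(N)`, of the same degree, and
  `up (N_{ψE} g) = N_ψ (up g)`;
* `s35wd_up_norm_alpha` / `s35wd_up_norm_beta`, `s35wd_normUp` : the instances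
  `(ssvmdIncl E M q, heckeAlphaBar)`, `(ssvmfPhi E M q, heckeBetaBar)`;
  `s35wd_finite_alpha/_phi`, `s35wd_finrank_alpha_eq/_beta_eq`;
* `s35wd_norm_alpha_descend` / `s35wd_norm_beta_descend` : the relation `N f = v ^ n` descends;
  `s35wd_descend` : packaged with `ssd_descend`.
-/

set_option autoImplicit false
set_option linter.unusedSectionVars false
set_option linter.unusedVariables false
set_option linter.style.haveILetI false
set_option synthInstance.maxHeartbeats 400000

noncomputable section

namespace Fermat.Agent.SS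

open Module ModularCurve AlgebraicCurve IntermediateField Fermat.Agent.S24 Fermat.Agent.G
  Fermat.Agent.S18

local notation "Qb" => AlgebraicClosure ℚ

/-! ### Abstract base change of the norm -/

/-- Norm commutes with base change along a compatible pair of ring homs when the degrees agree
and the image spans. -/
theorem s35wd_norm_baseChange {K L K' L' : Type*} [Field K] [Field L] [Field K'] [Field L']
    [Algebra K L] [Algebra K' L'] [FiniteDimensional K L]
    (u₀ : K →+* K') (u : L →+* L')
    (hcomp : ∀ a : K, u (algebraMap K L a) = algebraMap K' L' (u₀ a))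
    (hdim : finrank K' L' = finrank K L)
    (hspan : Submodule.span K' (Set.range u) = ⊤) (g : L) :
    u₀ (Algebra.norm K g) = Algebra.norm K' (u g) := by
  classical
  let b := Module.finBasis K L
  have hsp : ⊤ ≤ Submodule.span K' (Set.range (fun i => u (b i))) := by
    rw [← hspan, Submodule.span_le]
    rintro _ ⟨x, rfl⟩
    have hx : x = ∑ i, b.repr x i • b i := (b.sum_repr x).symm
    rw [hx, map_sum]
    refine Submodule.sum_mem _ fun i _ => ?_
    rw [Algebra.smul_def, map_mul, hcomp, ← Algebra.smul_def]
    exact Submodule.smul_mem _ _ (Submodule.subset_span ⟨i, rfl⟩)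
  have hcard : Fintype.card (Fin (finrank K L)) = finrank K' L' := by simp [hdim]
  let b' := basisOfTopLeSpanOfCardEqFinrank (fun i => u (b i)) hsp hcard
  have hb' : ∀ i, b' i = u (b i) := fun i => by
    simp only [b', coe_basisOfTopLeSpanOfCardEqFinrank]
  rw [Algebra.norm_eq_matrix_det b, Algebra.norm_eq_matrix_det b', RingHom.map_det]
  congr 1
  ext i j
  simp only [RingHom.mapMatrix_apply, Matrix.map_apply, Algebra.leftMulMatrix_eq_repr_mul]
  have key : u g * b' j = ∑ k, u₀ (b.repr (g * b j) k) • b' k := by
    rw [hb', ← map_mul]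
    conv_lhs => rw [← b.sum_repr (g * b j)]
    rw [map_sum]
    refine Finset.sum_congr rfl fun k _ => ?_
    rw [Algebra.smul_def, map_mul, hcomp, ← Algebra.smul_def, hb']
  rw [key, b'.repr_sum_self]

/-- if the image of a ring hom generates an algebraic extension as a field, it spans it. -/
theorem s35wd_span_eq_top {L K' L' : Type*} [Field L] [Field K'] [Field L'] [Algebra K' L']
    [Algebra.IsAlgebraic K' L'] (u : L →+* L')
    (h : IntermediateField.adjoin K' (Set.range u) = ⊤) :
    Submodule.span K' (Set.range u) = ⊤ := by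
  have h1 : (IntermediateField.adjoin K' (Set.range u)).toSubalgebra =
      Algebra.adjoin K' (Set.range u) := IntermediateField.adjoin_toSubalgebra _
  have h2 : Subalgebra.toSubmodule (Algebra.adjoin K' (Set.range u)) =
      Submodule.span K' (Set.range u) := by
    rw [Algebra.adjoin_eq_span]
    congr 1
    have : (Set.range u) = (MonoidHom.mrange (u : L →* L') : Set L') := by ext; simp
    rw [this, Submonoid.closure_eq]
  rw [← h2, ← h1, h]
  simp

/-- **tower form of linear disjointness** : `Ω ⊂ K'`, `Ω ⊂ L'` constants, `K ⊂ L`, `K' ⊂ L'`,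
`K → K'`, `L → L'` compatible.  If a family `c` of constants is `L`-linearly independent in `L'`,
its `K`-span in `K'` contains the constants and `K' = K(Ω)`, then every `K`-linearly independent
family of `L` stays `K'`-linearly independent in `L'`. -/
theorem s35wd_linearIndependent_up {Ω K L K' L' : Type*} [Field Ω] [Field K] [Field L] [Field K']
    [Field L'] [Algebra Ω K'] [Algebra Ω L'] [Algebra K L] [Algebra K' L'] [Algebra K K']
    [Algebra L L'] [Algebra K L'] [IsScalarTower K L L'] [IsScalarTower K K' L']
    [IsScalarTower Ω K' L'] {κ : Type*} (c : κ → Ω)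
    (h1 : LinearIndependent L (fun k => algebraMap Ω L' (c k)))
    (h2 : IntermediateField.adjoin K (Set.range (algebraMap Ω K')) = ⊤)
    (h3 : ∀ ω : Ω, algebraMap Ω K' ω ∈
      Submodule.span K (Set.range fun k => algebraMap Ω K' (c k)))
    {ι : Type*} [Fintype ι] (b : ι → L) (hb : LinearIndependent K b) :
    LinearIndependent K' (fun i => algebraMap L L' (b i)) := by
  classical
  -- the ring `K[Ω]` lies in the `K`-span of the `c k`
  have hΓ : ∀ x ∈ Algebra.adjoin K (Set.range (algebraMap Ω K')),
      x ∈ Submodule.span K (Set.range fun k => algebraMap Ω K' (c k)) := by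
    intro x hx
    have hx' : x ∈ Subalgebra.toSubmodule (Algebra.adjoin K (Set.range (algebraMap Ω K'))) := hx
    rw [Algebra.adjoin_eq_span] at hx'
    have hcl : (Submonoid.closure (Set.range (algebraMap Ω K')) : Set K') =
        Set.range (algebraMap Ω K') := by
      have : Set.range (algebraMap Ω K') =
          (MonoidHom.mrange ((algebraMap Ω K' : Ω →+* K') : Ω →* K') : Set K') := by
        ext; simp
      rw [this, Submonoid.closure_eq]
    rw [hcl] at hx'
    refine Submodule.span_le.mpr ?_ hx'
    rintro _ ⟨ω, rfl⟩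
    exact h3 ω
  rw [Fintype.linearIndependent_iff]
  intro g hg
  -- denominators
  have hfrac : ∀ i, ∃ r ∈ Algebra.adjoin K (Set.range (algebraMap Ω K')),
      ∃ s ∈ Algebra.adjoin K (Set.range (algebraMap Ω K')), s ≠ 0 ∧ g i * s = r := by
    intro i
    have hgi : g i ∈ IntermediateField.adjoin K (Set.range (algebraMap Ω K')) := by
      rw [h2]; trivial
    obtain ⟨r, hr, s, hs, hrs⟩ := IntermediateField.mem_adjoin_iff_div.mp hgi
    by_cases hs0 : s = 0
    · refine ⟨0, Subalgebra.zero_mem _, 1, Subalgebra.one_mem _, one_ne_zero, ?_⟩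
      rw [hrs, hs0, div_zero, zero_mul]
    · exact ⟨r, hr, s, hs, hs0, by rw [hrs, div_mul_cancel₀ _ hs0]⟩
  choose r hr s hs hs0 hrs using hfrac
  set t : K' := ∏ j, s j with ht
  have ht0 : t ≠ 0 := Finset.prod_ne_zero_iff.mpr fun j _ => hs0 j
  have hmem : ∀ i, t * g i ∈ Algebra.adjoin K (Set.range (algebraMap Ω K')) := by
    intro i
    have : t * g i = r i * ∏ j ∈ Finset.univ.erase i, s j := by
      rw [ht, ← Finset.mul_prod_erase Finset.univ s (Finset.mem_univ i), ← hrs i]
      ring
    rw [this]
    exact Subalgebra.mul_mem _ (hr i) (Subalgebra.prod_mem _ fun j _ => hs j)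
  -- expansions
  have hexp : ∀ i, ∃ a : κ →₀ K, (a.sum fun k x => x • algebraMap Ω K' (c k)) = t * g i := by
    intro i
    have := hΓ _ (hmem i)
    rw [Finsupp.mem_span_range_iff_exists_finsupp] at this
    exact this
  choose a ha using hexp
  let S : Finset κ := Finset.univ.biUnion fun i => (a i).support
  have hS : ∀ i, (a i).support ⊆ S := fun i =>
    Finset.subset_biUnion_of_mem (fun i => (a i).support) (Finset.mem_univ i)
  have ha' : ∀ i, t * g i = ∑ k ∈ S, a i k • algebraMap Ω K' (c k) := by
    intro i
    rw [← ha i]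
    exact Finsupp.sum_of_support_subset _ (hS i) _ (fun k _ => zero_smul _ _)
  have hli := linearIndependent_smul hb h1
  rw [linearIndependent_iff'] at hli
  have hsum : ∑ p ∈ (Finset.univ : Finset ι) ×ˢ S,
      (fun p : ι × κ => a p.1 p.2) p • (b p.1 • algebraMap Ω L' (c p.2)) = 0 := by
    rw [Finset.sum_product]
    have h0 : ∑ i, (t * g i) • algebraMap L L' (b i) = 0 := by
      simp_rw [mul_smul]
      rw [← Finset.smul_sum, hg, smul_zero]
    rw [← h0]
    refine Finset.sum_congr rfl fun i _ => ?_
    rw [ha' i, Finset.sum_smul]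
    refine Finset.sum_congr rfl fun k _ => ?_
    simp only [Algebra.smul_def, map_mul]
    rw [← IsScalarTower.algebraMap_apply K K' L', ← IsScalarTower.algebraMap_apply Ω K' L']
    ring
  have hzero := hli _ _ hsum
  intro i
  have : t * g i = 0 := by
    rw [ha' i]
    refine Finset.sum_eq_zero fun k hk => ?_
    rw [hzero (i, k) (Finset.mk_mem_product (Finset.mem_univ i) hk), zero_smul]
  exact (mul_eq_zero.mp this).resolve_left ht0

/-- base change of finiteness, degree and norm from the preservation of linear independence. -/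
theorem s35wd_baseChange_of_li {K L K' L' : Type*} [Field K] [Field L] [Field K'] [Field L']
    [Algebra K L] [Algebra K' L'] [Algebra K K'] [Algebra L L'] [Algebra K L']
    [IsScalarTower K L L'] [IsScalarTower K K' L'] [Module.Finite K' L']
    (hli : ∀ (n : ℕ) (b : Fin n → L), LinearIndependent K b →
      LinearIndependent K' (fun i => algebraMap L L' (b i)))
    (hspan : Submodule.span K' (Set.range (algebraMap L L')) = ⊤) :
    Module.Finite K L ∧ finrank K' L' = finrank K L ∧
      ∀ g : L, algebraMap K K' (Algebra.norm K g) = Algebra.norm K' (algebraMap L L' g) := by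
  classical
  have hfin : Module.Finite K L := by
    have hle : Module.rank K L ≤ (finrank K' L' : ℕ) := by
      refine rank_le fun s hs => ?_
      have h := hli s.card (fun j : Fin s.card => ((s.equivFin.symm j : s) : L))
        (hs.comp _ s.equivFin.symm.injective)
      simpa using h.fintype_card_le_finrank
    exact Module.rank_lt_aleph0_iff.mp (lt_of_le_of_lt hle Cardinal.natCast_lt_aleph0)
  have hdim : finrank K' L' = finrank K L := by
    let b := Module.finBasis K L
    have h := hli (finrank K L) b b.linearIndependent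
    have hsp : ⊤ ≤ Submodule.span K' (Set.range fun i => algebraMap L L' (b i)) := by
      rw [← hspan, Submodule.span_le]
      rintro _ ⟨x, rfl⟩
      have hx : x = ∑ i, b.repr x i • b i := (b.sum_repr x).symm
      rw [hx, map_sum]
      refine Submodule.sum_mem _ fun i _ => ?_
      rw [Algebra.smul_def, map_mul, ← IsScalarTower.algebraMap_apply K L L',
        IsScalarTower.algebraMap_apply K K' L', ← Algebra.smul_def]
      exact Submodule.smul_mem _ _ (Submodule.subset_span ⟨i, rfl⟩)
    have := Module.finrank_eq_card_basis (Basis.mk h hsp)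
    simpa using this
  refine ⟨hfin, hdim, fun g => ?_⟩
  exact s35wd_norm_baseChange (algebraMap K K') (algebraMap L L')
    (fun a => by
      rw [← IsScalarTower.algebraMap_apply K L L', IsScalarTower.algebraMap_apply K K' L'])
    hdim hspan g

/-! ### `F(N)` is generated over `ℚ̄` by the image of `F_E(N)` -/

section Gen

variable (E : IntermediateField ℚ Qb) (N : ℕ) [NeZero N]

/-- every subfield of `F(N)` containing the constants and the image of `F_E(N)` is everything -/
theorem s35wd_mem_of_subfield (S : Subfield (modularFunctionFieldBar N))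
    (hc : ∀ c : Qb, algebraMap Qb (modularFunctionFieldBar N) c ∈ S)
    (hu : ∀ z : modularFunctionFieldFullC E N, ssdUp E N z ∈ S)
    (x : modularFunctionFieldBar N) : x ∈ S := by
  have hle : Subfield.closure (Set.range (algebraMap Qb (LaurentSeries Qb)) ∪
      (⇑(coeffEmb Qb) '' (modularFunctionFieldFull N : Set (LaurentSeries ℚ)))) ≤
      S.map (modularFunctionFieldBar N).val.toRingHom := by
    rw [Subfield.closure_le]
    rintro y (⟨c, rfl⟩ | ⟨y₀, hy₀, rfl⟩)
    · exact ⟨algebraMap Qb (modularFunctionFieldBar N) c, hc c, rfl⟩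
    · have hmem : coeffMap (algebraMap ℚ E) y₀ ∈ modularFunctionFieldFullC E N :=
        s18dd_coeffMap_mem_full (algebraMap ℚ E) N hy₀
      refine ⟨ssdUp E N ⟨_, hmem⟩, hu _, ?_⟩
      show s18dUp E (coeffMap (algebraMap ℚ E) y₀) = coeffMap (algebraMap ℚ Qb) y₀
      show coeffMap (algebraMap E Qb) (coeffMap (algebraMap ℚ E) y₀) = coeffMap (algebraMap ℚ Qb) y₀
      rw [coeffMap_coeffMap]
      exact coeffMap_congr (RingHom.ext fun a => (IsScalarTower.algebraMap_apply ℚ E Qb a).symm) _
  have hx : (x : LaurentSeries Qb) ∈ Subfield.closure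
      (Set.range (algebraMap Qb (LaurentSeries Qb)) ∪
      (⇑(coeffEmb Qb) '' (modularFunctionFieldFull N : Set (LaurentSeries ℚ)))) := x.2
  obtain ⟨s, hs, hsx⟩ := hle hx
  have : s = x := Subtype.ext hsx
  rwa [← this]

/-- `F(N)` is generated as a field, over any `ℚ̄`-subfield `F`, by the image of `F_E(N)`. -/
theorem s35wd_adjoin_eq_top {F : Type*} [Field F] [Algebra Qb F]
    (ψ : F →ₐ[Qb] modularFunctionFieldBar N) :
    letI := algebraAlong ψ
    IntermediateField.adjoin F (Set.range (ssdUp E N)) = ⊤ := by
  letI := algebraAlong ψ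
  rw [eq_top_iff]
  rintro x -
  refine s35wd_mem_of_subfield E N (IntermediateField.adjoin F (Set.range (ssdUp E N))).toSubfield
    (fun c => ?_) (fun z => ?_) x
  · have : algebraMap Qb (modularFunctionFieldBar N) c =
        algebraMap F (modularFunctionFieldBar N) (algebraMap Qb F c) := (ψ.commutes c).symm
    rw [this]
    exact (IntermediateField.adjoin F (Set.range (ssdUp E N))).algebraMap_mem _
  · exact IntermediateField.subset_adjoin _ _ ⟨z, rfl⟩

end Gen

/-! ### Level-generic base change `E → ℚ̄` of finiteness, degree and norm -/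

section GenLevel

variable (E : IntermediateField ℚ Qb)

/-- an `E`-basis of `ℚ̄` stays linearly independent over `F_E(N)` in `F(N)` (coefficientwise). -/
theorem s35wd_li_const (N : ℕ) [NeZero N] {κ : Type*} (e : Basis κ E Qb) :
    letI := (ssdUp E N).toAlgebra
    LinearIndependent (modularFunctionFieldFullC E N)
      (fun k => algebraMap Qb (modularFunctionFieldBar N) (e k)) := by
  letI := (ssdUp E N).toAlgebra
  rw [linearIndependent_iff']
  intro s g hg k hk
  apply Subtype.ext
  ext m
  have hcoef : ∀ i, (((g i • algebraMap Qb (modularFunctionFieldBar N) (e i) :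
      modularFunctionFieldBar N)) : LaurentSeries Qb).coeff m =
      ((g i : LaurentSeries E).coeff m) • e i := by
    intro i
    have h1 : ((g i • algebraMap Qb (modularFunctionFieldBar N) (e i) :
        modularFunctionFieldBar N) : LaurentSeries Qb) =
        s18dUp E (g i : LaurentSeries E) * HahnSeries.single 0 (e i) := by
      rw [← algebraMap_laurentSeries_eq_single]
      rfl
    rw [h1, HahnSeries.coeff_mul_single_zero, Algebra.smul_def]
    rfl
  have hm : ((∑ i ∈ s, g i • algebraMap Qb (modularFunctionFieldBar N) (e i) :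
      modularFunctionFieldBar N) : LaurentSeries Qb).coeff m = 0 := by
    rw [hg]; rfl
  have hsum : ((∑ i ∈ s, g i • algebraMap Qb (modularFunctionFieldBar N) (e i) :
      modularFunctionFieldBar N) : LaurentSeries Qb).coeff m =
      ∑ i ∈ s, ((g i : LaurentSeries E).coeff m) • e i := by
    rw [show ((∑ i ∈ s, g i • algebraMap Qb (modularFunctionFieldBar N) (e i) :
      modularFunctionFieldBar N) : LaurentSeries Qb) =
      ∑ i ∈ s, ((g i • algebraMap Qb (modularFunctionFieldBar N) (e i) :
        modularFunctionFieldBar N) : LaurentSeries Qb) from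
      map_sum (modularFunctionFieldBar N).val _ _]
    rw [HahnSeries.coeff_sum]
    exact Finset.sum_congr rfl fun i _ => hcoef i
  rw [hsum] at hm
  have hli := e.linearIndependent
  rw [linearIndependent_iff'] at hli
  have hk0 : (g k : LaurentSeries E).coeff m = 0 :=
    hli s (fun i => (g i : LaurentSeries E).coeff m) hm k hk
  rw [hk0]
  rfl

/-- `F(N) = F_E(N)(ℚ̄)`. -/
theorem s35wd_adjoin_const_eq_top (N : ℕ) [NeZero N] :
    letI := (ssdUp E N).toAlgebra
    IntermediateField.adjoin (modularFunctionFieldFullC E N)
      (Set.range (algebraMap Qb (modularFunctionFieldBar N))) = ⊤ := by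
  letI := (ssdUp E N).toAlgebra
  rw [eq_top_iff]
  rintro x -
  refine s35wd_mem_of_subfield E N (IntermediateField.adjoin (modularFunctionFieldFullC E N)
      (Set.range (algebraMap Qb (modularFunctionFieldBar N)))).toSubfield
    (fun c => ?_) (fun z => ?_) x
  · exact IntermediateField.subset_adjoin _ _ ⟨c, rfl⟩
  · exact (IntermediateField.adjoin (modularFunctionFieldFullC E N)
      (Set.range (algebraMap Qb (modularFunctionFieldBar N)))).algebraMap_mem z

/-- the constants lie in the `F_E(N)`-span of an `E`-basis of `ℚ̄`. -/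
theorem s35wd_const_mem_span (N : ℕ) [NeZero N] {κ : Type*} (e : Basis κ E Qb) (ω : Qb) :
    letI := (ssdUp E N).toAlgebra
    algebraMap Qb (modularFunctionFieldBar N) ω ∈
      Submodule.span (modularFunctionFieldFullC E N)
        (Set.range fun k => algebraMap Qb (modularFunctionFieldBar N) (e k)) := by
  letI := (ssdUp E N).toAlgebra
  have hω : ω = ∑ k ∈ (e.repr ω).support, e.repr ω k • e k := by
    conv_lhs => rw [← e.linearCombination_repr ω]
    rfl
  rw [hω, map_sum]
  refine Submodule.sum_mem _ fun k _ => ?_
  have : algebraMap Qb (modularFunctionFieldBar N) (e.repr ω k • e k) =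
      (algebraMap E (modularFunctionFieldFullC E N) (e.repr ω k)) •
        algebraMap Qb (modularFunctionFieldBar N) (e k) := by
    rw [Algebra.smul_def, map_mul, Algebra.smul_def]
    congr 1
    exact (ssdUp_algebraMap E N _).symm
  rw [this]
  exact Submodule.smul_mem _ _ (Submodule.subset_span ⟨k, rfl⟩)

/-- **(G4, level-generic)** for ANY pair of levels and ANY compatible pair of embeddings
`ψE : F_E(N) → F_E(N')`, `ψ : F(N) → F(N')` with `F(N')` finite over `ψ F(N)` : `F_E(N')` is finite
over `ψE F_E(N)`, of the same degree, and the norms commute with the base change. -/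
theorem s35wd_up_norm_gen (N N' : ℕ) [NeZero N] [NeZero N']
    (ψE : modularFunctionFieldFullC E N →+* modularFunctionFieldFullC E N')
    (ψ : modularFunctionFieldBar N →ₐ[Qb] modularFunctionFieldBar N')
    (hcompat : ∀ x, ssdUp E N' (ψE x) = ψ (ssdUp E N x)) (hfin : FiniteAlong Qb ψ) :
    (letI := ψE.toAlgebra
     Module.Finite (modularFunctionFieldFullC E N) (modularFunctionFieldFullC E N')) ∧
    (letI := algebraAlong ψ
     Module.finrank (modularFunctionFieldBar N) (modularFunctionFieldBar N')) =
      (letI := ψE.toAlgebra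
       Module.finrank (modularFunctionFieldFullC E N) (modularFunctionFieldFullC E N')) ∧
    ∀ g : modularFunctionFieldFullC E N',
      ssdUp E N (letI := ψE.toAlgebra
        Algebra.norm (modularFunctionFieldFullC E N) g) =
      (letI := algebraAlong ψ
       Algebra.norm (modularFunctionFieldBar N) (ssdUp E N' g)) := by
  letI a1 : Algebra (modularFunctionFieldFullC E N) (modularFunctionFieldFullC E N') :=
    ψE.toAlgebra
  letI a2 : Algebra (modularFunctionFieldBar N) (modularFunctionFieldBar N') := algebraAlong ψ
  letI a3 : Algebra (modularFunctionFieldFullC E N) (modularFunctionFieldBar N) :=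
    (ssdUp E N).toAlgebra
  letI a4 : Algebra (modularFunctionFieldFullC E N') (modularFunctionFieldBar N') :=
    (ssdUp E N').toAlgebra
  letI a5 : Algebra (modularFunctionFieldFullC E N) (modularFunctionFieldBar N') :=
    ((ssdUp E N').comp ψE).toAlgebra
  haveI t1 : IsScalarTower (modularFunctionFieldFullC E N) (modularFunctionFieldFullC E N')
      (modularFunctionFieldBar N') := IsScalarTower.of_algebraMap_eq fun x => rfl
  haveI t2 : IsScalarTower (modularFunctionFieldFullC E N) (modularFunctionFieldBar N)
      (modularFunctionFieldBar N') := IsScalarTower.of_algebraMap_eq fun x => hcompat x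
  haveI t3 : IsScalarTower Qb (modularFunctionFieldBar N) (modularFunctionFieldBar N') :=
    IsScalarTower.of_algebraMap_eq fun c => (ψ.commutes c).symm
  haveI hfin' : Module.Finite (modularFunctionFieldBar N) (modularFunctionFieldBar N') := hfin
  let e := Basis.ofVectorSpace E Qb
  have hli : ∀ (n : ℕ) (b : Fin n → modularFunctionFieldFullC E N'),
      LinearIndependent (modularFunctionFieldFullC E N) b →
      LinearIndependent (modularFunctionFieldBar N)
        (fun i => algebraMap (modularFunctionFieldFullC E N') (modularFunctionFieldBar N') (b i)) :=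
    fun n b hb => s35wd_linearIndependent_up (fun k => e k) (s35wd_li_const E N' e)
      (s35wd_adjoin_const_eq_top E N) (s35wd_const_mem_span E N e) b hb
  have hspan : Submodule.span (modularFunctionFieldBar N)
      (Set.range (algebraMap (modularFunctionFieldFullC E N') (modularFunctionFieldBar N'))) = ⊤ :=
    s35wd_span_eq_top (ssdUp E N') (s35wd_adjoin_eq_top E N' ψ)
  exact s35wd_baseChange_of_li hli hspan

end GenLevel

/-! ### The two degeneracy maps -/

section Main

variable (E : IntermediateField ℚ Qb) (M q : ℕ) [NeZero M] [NeZero q]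

/-- `up ∘ α_E = α ∘ up` -/
theorem s35wd_up_incl (x : modularFunctionFieldFullC E M) :
    ssdUp E (M * q) (ssvmdIncl E M q x) = heckeAlphaBar Qb M q (ssdUp E M x) := by
  apply Subtype.ext
  rw [coe_heckeAlphaBar, coe_ssdUp, coe_ssdUp, ssvmdIncl_coe]

/-- `up ∘ φ_E = β ∘ up` -/
theorem s35wd_up_phi (x : modularFunctionFieldFullC E M) :
    ssdUp E (M * q) (ssvmfPhi E M q x) = heckeBetaBar Qb M q (ssdUp E M x) := by
  apply Subtype.ext
  rw [coe_heckeBetaBar, coe_ssdUp, coe_ssdUp, ssvmfPhi_coe]
  exact coeffMap_qExpand _ _ _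

/-- `F_E(M q)` is finite over `α F_E(M)` (ANY `M`, `q`). -/
theorem s35wd_finite_alpha :
    letI := (ssvmdIncl E M q).toRingHom.toAlgebra
    Module.Finite (modularFunctionFieldFullC E M) (modularFunctionFieldFullC E (M * q)) :=
  (s35wd_up_norm_gen E M (M * q) (ssvmdIncl E M q).toRingHom (heckeAlphaBar Qb M q)
    (fun x => s35wd_up_incl E M q x) (gff_alpha_finite M q)).1

/-- `F_E(M q)` is finite over `φ F_E(M)` (ANY `M`, `q`). -/
theorem s35wd_finite_phi :
    letI := (ssvmfPhi E M q).toAlgebra
    Module.Finite (modularFunctionFieldFullC E M) (modularFunctionFieldFullC E (M * q)) :=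
  (s35wd_up_norm_gen E M (M * q) (ssvmfPhi E M q) (heckeBetaBar Qb M q)
    (fun x => s35wd_up_phi E M q x) (gff_beta_finite M q)).1

/-- `[F(M q) : α F(M)] = [F_E(M q) : α F_E(M)]` (ANY `M`, `q`). -/
theorem s35wd_finrank_alpha_eq :
    finrankAlong Qb (heckeAlphaBar Qb M q) =
      (letI := (ssvmdIncl E M q).toRingHom.toAlgebra
       Module.finrank (modularFunctionFieldFullC E M) (modularFunctionFieldFullC E (M * q))) :=
  (s35wd_up_norm_gen E M (M * q) (ssvmdIncl E M q).toRingHom (heckeAlphaBar Qb M q)
    (fun x => s35wd_up_incl E M q x) (gff_alpha_finite M q)).2.1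

/-- `[F(M q) : β F(M)] = [F_E(M q) : φ F_E(M)]` (ANY `M`, `q`). -/
theorem s35wd_finrank_beta_eq :
    finrankAlong Qb (heckeBetaBar Qb M q) =
      (letI := (ssvmfPhi E M q).toAlgebra
       Module.finrank (modularFunctionFieldFullC E M) (modularFunctionFieldFullC E (M * q))) :=
  (s35wd_up_norm_gen E M (M * q) (ssvmfPhi E M q) (heckeBetaBar Qb M q)
    (fun x => s35wd_up_phi E M q x) (gff_beta_finite M q)).2.1

/-- **(G4-α)** the norm along `α` commutes with the base change `E → ℚ̄` (ANY `M`, `q`). -/
theorem s35wd_up_norm_alpha (g : modularFunctionFieldFullC E (M * q)) :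
    ssdUp E M (letI := (ssvmdIncl E M q).toRingHom.toAlgebra
      Algebra.norm (modularFunctionFieldFullC E M) g) =
      (letI := algebraAlong (heckeAlphaBar Qb M q)
       Algebra.norm (modularFunctionFieldBar M) (ssdUp E (M * q) g)) :=
  (s35wd_up_norm_gen E M (M * q) (ssvmdIncl E M q).toRingHom (heckeAlphaBar Qb M q)
    (fun x => s35wd_up_incl E M q x) (gff_alpha_finite M q)).2.2 g

/-- **(G4-β)** the norm along `φ` / `β` commutes with the base change `E → ℚ̄` (ANY `M`, `q`). -/
theorem s35wd_up_norm_beta (g : modularFunctionFieldFullC E (M * q)) :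
    ssdUp E M (letI := (ssvmfPhi E M q).toAlgebra
      Algebra.norm (modularFunctionFieldFullC E M) g) =
      (letI := algebraAlong (heckeBetaBar Qb M q)
       Algebra.norm (modularFunctionFieldBar M) (ssdUp E (M * q) g)) :=
  (s35wd_up_norm_gen E M (M * q) (ssvmfPhi E M q) (heckeBetaBar Qb M q)
    (fun x => s35wd_up_phi E M q x) (gff_beta_finite M q)).2.2 g

/-- **(G4)** in the literal (unfolded) shape of `SttNormUp M q` of `ST/Top/Geo.lean`
(`sttNorm ι g = letI := ι.toAlgebra; Algebra.norm _ g`). -/
theorem s35wd_normUp :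
    ∀ (E : IntermediateField ℚ Qb) (g : modularFunctionFieldFullC E (M * q)),
      ssdUp E M (letI := ((ssvmdIncl E M q).toRingHom).toAlgebra
        Algebra.norm (modularFunctionFieldFullC E M) g) =
        (letI := ((heckeAlphaBar Qb M q).toRingHom).toAlgebra
         Algebra.norm (modularFunctionFieldBar M) (ssdUp E (M * q) g)) ∧
      ssdUp E M (letI := (ssvmfPhi E M q).toAlgebra
        Algebra.norm (modularFunctionFieldFullC E M) g) =
        (letI := ((heckeBetaBar Qb M q).toRingHom).toAlgebra
         Algebra.norm (modularFunctionFieldBar M) (ssdUp E (M * q) g)) :=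
  fun E g => ⟨s35wd_up_norm_alpha E M q g, s35wd_up_norm_beta E M q g⟩

/-- **(G4-α, descended relation)** `N_α f = vα ^ n` over `ℚ̄` descends to every `E` over which
`f` and `vα` are defined. -/
theorem s35wd_norm_alpha_descend (n : ℕ)
    (fE : modularFunctionFieldFullC E (M * q)) (vE : modularFunctionFieldFullC E M)
    (f : modularFunctionFieldBar (M * q)) (v : modularFunctionFieldBar M)
    (hf : ssdUp E (M * q) fE = f)
    (hv : ssdUp E M vE = v)
    (hN : (letI := algebraAlong (heckeAlphaBar Qb M q)
       Algebra.norm (modularFunctionFieldBar M) f) = v ^ n) :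
    (letI := (ssvmdIncl E M q).toRingHom.toAlgebra
     Algebra.norm (modularFunctionFieldFullC E M) fE) = vE ^ n := by
  apply ssdUp_injective E M
  rw [s35wd_up_norm_alpha E M q fE, hf, hN, map_pow, hv]

/-- **(G4-β, descended relation)** `N_β f = vβ ^ n` over `ℚ̄` descends to every `E` over which
`f` and `vβ` are defined. -/
theorem s35wd_norm_beta_descend (n : ℕ)
    (fE : modularFunctionFieldFullC E (M * q)) (vE : modularFunctionFieldFullC E M)
    (f : modularFunctionFieldBar (M * q)) (v : modularFunctionFieldBar M)
    (hf : ssdUp E (M * q) fE = f)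
    (hv : ssdUp E M vE = v)
    (hN : (letI := algebraAlong (heckeBetaBar Qb M q)
       Algebra.norm (modularFunctionFieldBar M) f) = v ^ n) :
    (letI := (ssvmfPhi E M q).toAlgebra
     Algebra.norm (modularFunctionFieldFullC E M) fE) = vE ^ n := by
  apply ssdUp_injective E M
  rw [s35wd_up_norm_beta E M q fE, hf, hN, map_pow, hv]

/-- **(G4, packaged)** a function `f ∈ F_ℚ̄(M q)` with `n`-divisible divisor and both norms
`n`-th powers descends, with both norm relations, to every big enough number field. -/
theorem s35wd_descend (n : ℕ)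
    (f : modularFunctionFieldBar (M * q))
    (hf0 : f ≠ 0) (v v' : modularFunctionFieldBar M)
    (hdiv : ∀ R : Place Qb (modularFunctionFieldBar (M * q)), (n : ℤ) ∣ R.ord f)
    (hNα : (letI := algebraAlong (heckeAlphaBar Qb M q)
       Algebra.norm (modularFunctionFieldBar M) f) = v ^ n)
    (hNβ : (letI := algebraAlong (heckeBetaBar Qb M q)
       Algebra.norm (modularFunctionFieldBar M) f) = v' ^ n) :
    ∃ E₁ : IntermediateField ℚ Qb, FiniteDimensional ℚ E₁ ∧
      ∀ E : IntermediateField ℚ Qb, E₁ ≤ E →
        ∃ (fE : modularFunctionFieldFullC E (M * q)) (vE vE' : modularFunctionFieldFullC E M),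
          ssdUp E (M * q) fE = f ∧ ssdUp E M vE = v ∧ ssdUp E M vE' = v' ∧
          (∀ R : Place E (modularFunctionFieldFullC E (M * q)), (n : ℤ) ∣ R.ord fE) ∧
          (∀ R : Place E (modularFunctionFieldFullC E (M * q)), R.ord fE ≠ 0 → SsRational R) ∧
          {R : Place E (modularFunctionFieldFullC E (M * q)) | R.ord fE ≠ 0}.Finite ∧
          (letI := (ssvmdIncl E M q).toRingHom.toAlgebra
           Algebra.norm (modularFunctionFieldFullC E M) fE) = vE ^ n ∧
          (letI := (ssvmfPhi E M q).toAlgebra
           Algebra.norm (modularFunctionFieldFullC E M) fE) = vE' ^ n := by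
  obtain ⟨E₁, hE₁, h₁⟩ := ssd_descend (M * q) n f hf0 hdiv
  obtain ⟨E₂, hE₂, h₂⟩ := ssd_exists_model M v
  obtain ⟨E₃, hE₃, h₃⟩ := ssd_exists_model M v'
  refine ⟨E₁ ⊔ E₂ ⊔ E₃, ?_, fun E hE => ?_⟩
  · haveI := hE₁
    haveI := hE₂
    haveI := hE₃
    haveI : FiniteDimensional ℚ (E₁ ⊔ E₂ : IntermediateField ℚ Qb) :=
      IntermediateField.finiteDimensional_sup _ _
    exact IntermediateField.finiteDimensional_sup _ _
  obtain ⟨fE, hfE, hd, hr, hfin⟩ := h₁ E ((le_sup_left.trans le_sup_left).trans hE)
  obtain ⟨vE, hvE⟩ := h₂ E ((le_sup_right.trans le_sup_left).trans hE)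
  obtain ⟨vE', hvE'⟩ := h₃ E (le_sup_right.trans hE)
  exact ⟨fE, vE, vE', hfE, hvE, hvE', hd, hr, hfin,
    s35wd_norm_alpha_descend E M q n fE vE f v hfE hvE hNα,
    s35wd_norm_beta_descend E M q n fE vE' f v' hfE hvE' hNβ⟩

end Main

end Fermat.Agent.SS
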