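import Mathlib
import Fermat.Agent.G.S37.Pull

/-!
# Program T / S35, leaf (W1), part 1 : THE TWO DEGENERACY PUSH-FORWARDS `α_*, β_* : J₀(N a) → J₀(N)`
and their Galois equivariance (helper prefix `s35w`)

* `s35wPushBeta N a : JZero (N * a) →+ JZero N`, the push-forward of divisor classes along
  `heckeBetaBar ℚ̄ N a` (`f(𝐪) ↦ f(𝐪^a)`); the push-forward along `heckeAlphaBar` is main's
  `g37pPush N a`;
* `s35w_pushAlong_smul` : the push-forward of classes is equivariant for intertwined semilinear
  automorphisms;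
* `s35w_push_galois`, `s35w_pushBeta_galois` : `α_* (σ • x) = σ • α_* x`, `β_* (σ • x) = σ • β_* x`;
* `s35wNew N a := ker α_* ⊓ ker β_*` (the `a`-new part) is Galois stable (`s35w_new_galois`).
-/

set_option autoImplicit false
set_option linter.unusedSectionVars false
set_option linter.unusedVariables false
set_option synthInstance.maxHeartbeats 400000
set_option linter.style.haveILetI false

noncomputable section

namespace Fermat.Agent.G

open ModularCurve AlgebraicCurve Fermat.Agent.S24

/-! ### generic : the push-forward of classes is equivariant -/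

section Along

variable {K F F' : Type*} [Field K] [Field F] [Field F'] [Algebra K F] [Algebra K F']
variable (φ : F →ₐ[K] F') (hφ : φ.toRingHom.IsIntegral)
variable {g : SemilinearAut K F} {g' : SemilinearAut K F'}

/-- the push-forward of classes is equivariant for intertwined semilinear automorphisms. -/
theorem s35w_pushAlong_smul (hfin : FiniteAlong K φ) (hN : NormFormulaAlong K φ hfin)
    (h : SemilinearAut.IntertwinesAlong φ.toRingHom g g') (x : Pic0 K F') :
    g37pPushAlong φ hφ hfin hN (g' • x) = g • g37pPushAlong φ hφ hfin hN x := by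
  obtain ⟨D, rfl⟩ := Pic0.mk_surjective x
  rw [SemilinearAut.pic0_smul_mk, g37pPushAlong_mk, g37pPushAlong_mk,
    SemilinearAut.pic0_smul_mk]
  refine congrArg Pic0.mk (Subtype.ext ?_)
  rw [coe_g37pDegZeroPush, SemilinearAut.coe_degZeroSMulHom,
    SemilinearAut.coe_degZeroSMulHom, coe_g37pDegZeroPush]
  exact gasmhg_pushforwardAlong_smul φ hφ h D

end Along

/-! ### the modular instance -/

section Modular

local notation "Qb" => AlgebraicClosure ℚ

variable (N a : ℕ) [NeZero N] [NeZero a]

theorem s35w_beta_normFormula :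
    NormFormulaAlong Qb (heckeBetaBar Qb N a) (gff_beta_finite N a) :=
  gffa_along_normFormula (heckeBetaBar Qb N a) (gff_beta_finite N a) (isSepGen_jBar N)

theorem s35w_beta_fundamentalIdentity :
    haveI := gff_hasPrincipalDivisors (N * a)
    FundamentalIdentityAlong Qb (heckeBetaBar Qb N a) (gff_beta_integral N a) :=
  haveI := gff_hasPrincipalDivisors (N * a)
  gffa_along_fundamentalIdentity (heckeBetaBar Qb N a) (gff_beta_finite N a)
    (gff_beta_integral N a) (isSepGen_jBar N)

/-- THE SECOND DEGENERACY PUSH-FORWARD `β_{a,*} : J₀(N a) → J₀(N)` (along `𝐪 ↦ 𝐪^a`). -/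
def s35wPushBeta : JZero (N * a) →+ JZero N :=
  g37pPushAlong (heckeBetaBar Qb N a) (gff_beta_integral N a) (gff_beta_finite N a)
    (s35w_beta_normFormula N a)

theorem s35wPushBeta_mk (D : Divisor.degZero (K := Qb) (F := modularFunctionFieldBar (N * a))) :
    s35wPushBeta N a (Pic0.mk D) = Pic0.mk (g37pDegZeroPush (heckeBetaBar Qb N a)
      (gff_beta_integral N a) D) := rfl

theorem s35w_push_mk (D : Divisor.degZero (K := Qb) (F := modularFunctionFieldBar (N * a))) :
    g37pPush N a (Pic0.mk D) = Pic0.mk (g37pDegZeroPush (heckeAlphaBar Qb N a)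
      (gff_alpha_integral N a) D) := rfl

/-- THE SECOND DEGENERACY PULL-BACK `β_a^* : J₀(N) → J₀(N a)`. -/
def s35wPullBeta : JZero N →+ JZero (N * a) :=
  haveI := gff_hasPrincipalDivisors (N * a)
  g37pPullAlong (heckeBetaBar Qb N a) (gff_beta_integral N a)
    (s35w_beta_fundamentalIdentity N a)

/-- `α_*` commutes with the Galois action. -/
theorem s35w_push_galois (σ : Qb ≃ₐ[ℚ] Qb) (x : JZero (N * a)) :
    g37pPush N a (σ • x) = σ • g37pPush N a x := by
  rw [galois_smul_pic0_def, galois_smul_pic0_def]
  exact s35w_pushAlong_smul (heckeAlphaBar Qb N a) (gff_alpha_integral N a)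
    (gff_alpha_finite N a) (g37p_alpha_normFormula N a) (gasmhg_alpha_intertwines N a σ) x

/-- `β_*` commutes with the Galois action. -/
theorem s35w_pushBeta_galois (σ : Qb ≃ₐ[ℚ] Qb) (x : JZero (N * a)) :
    s35wPushBeta N a (σ • x) = σ • s35wPushBeta N a x := by
  rw [galois_smul_pic0_def, galois_smul_pic0_def]
  exact s35w_pushAlong_smul (heckeBetaBar Qb N a) (gff_beta_integral N a)
    (gff_beta_finite N a) (s35w_beta_normFormula N a) (gasmhg_beta_intertwines N a σ) x

/-- `β^*` commutes with the Galois action. -/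
theorem s35w_pullBeta_galois (σ : Qb ≃ₐ[ℚ] Qb) (x : JZero N) :
    s35wPullBeta N a (σ • x) = σ • s35wPullBeta N a x := by
  haveI := gff_hasPrincipalDivisors (N * a)
  rw [galois_smul_pic0_def, galois_smul_pic0_def]
  exact g37p_pullAlong_smul (heckeBetaBar Qb N a) (gff_beta_integral N a)
    (s35w_beta_fundamentalIdentity N a) (gasmhg_beta_intertwines N a σ) x

/-- THE `a`-NEW PART of `J₀(N a)` : the classes killed by both degeneracy push-forwards. -/
def s35wNew : AddSubgroup (JZero (N * a)) :=
  (g37pPush N a).ker ⊓ (s35wPushBeta N a).ker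

theorem s35w_mem_new {x : JZero (N * a)} :
    x ∈ s35wNew N a ↔ g37pPush N a x = 0 ∧ s35wPushBeta N a x = 0 := by
  rw [s35wNew, AddSubgroup.mem_inf, AddMonoidHom.mem_ker, AddMonoidHom.mem_ker]

/-- the `a`-new part is Galois stable. -/
theorem s35w_new_galois (σ : Qb ≃ₐ[ℚ] Qb) {x : JZero (N * a)} (hx : x ∈ s35wNew N a) :
    σ • x ∈ s35wNew N a := by
  rw [s35w_mem_new] at hx ⊢
  rw [s35w_push_galois, s35w_pushBeta_galois, hx.1, hx.2]
  have h0 : σ • (0 : JZero N) = 0 := smul_zero (A := JZero N) σ
  exact ⟨h0, h0⟩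

end Modular

end Fermat.Agent.G
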