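import Mathlib
import Fermat.Agent.S35.Push.Galois
import Fermat.Agent.G.Desc.Kummer

/-!
# Program T / S35 (and Q / S36), leaf (W1), part 4 : WHAT `α_* x = 0` MEANS FOR THE KUMMER FUNCTION
(helper prefix `s35w`)

`x = [D] ∈ Pic⁰(F')`, `n D = div f` (so `n x = 0`, `f` the Kummer function of `x`), and the
push-forward of `x` along `φ : F → F'` vanishes.  Then the norm of `f` is an `n`-th power :

  `N_φ f = vⁿ`,  `div v = φ_* D`      (`v ∈ F^×`; the constant is absorbed, `K` algebraically closed).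

* `s35w_norm_eq_pow_of_pushAlong` : generic (`K` algebraically closed of characteristic `0`, `F` with
  a separating generator);
* `s35w_norm_alpha`, `s35w_norm_beta` : the modular instances for `g37pPush N a`, `s35wPushBeta N a`
  (any `N`, `a` : the same statements serve level `q M'` (Program T) and level `q² M'` (Program Q)).
-/

set_option autoImplicit false
set_option linter.unusedSectionVars false
set_option linter.unusedVariables false
set_option synthInstance.maxHeartbeats 400000
set_option linter.style.haveILetI false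

noncomputable section

namespace Fermat.Agent.G

open ModularCurve AlgebraicCurve Fermat.Agent.S24

section Along

variable {K F F' : Type*} [Field K] [Field F] [Field F'] [Algebra K F] [Algebra K F']
variable [IsAlgClosed K] [CharZero K]
variable (φ : F →ₐ[K] F') (hφ : φ.toRingHom.IsIntegral)

/-- if the class of `D` (with `n D = div f`) is killed by the push-forward along `φ`, the norm of
`f` along `φ` is an `n`-th power `vⁿ`, and `div v = φ_* D`. -/
theorem s35w_norm_eq_pow_of_pushAlong (hfin : FiniteAlong K φ) (hN : NormFormulaAlong K φ hfin)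
    {t : F} (ht : IsSepGen K t) {n : ℕ} (hn : 0 < n)
    (D : Divisor.degZero (K := K) (F := F')) (f : F') (hf : f ≠ 0)
    (hD : ∀ w : Place K F', (n : ℤ) * (D : Divisor K F') w = w.ord f)
    (hpush : g37pPushAlong φ hφ hfin hN (Pic0.mk D) = 0) :
    ∃ v : F, v ≠ 0 ∧
      (letI := algebraAlong φ
       Algebra.norm F f = v ^ n) ∧
      ∀ w : Place K F, Divisor.pushforwardAlong φ hφ (D : Divisor K F') w = w.ord v := by
  -- the push-forward of `D` is principal
  rw [g37pPushAlong_mk] at hpush
  have hprin : (Divisor.pushforwardAlong φ hφ (D : Divisor K F')).IsPrincipal := by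
    have h := (QuotientAddGroup.eq_zero_iff _).mp hpush
    rw [AddSubgroup.mem_addSubgroupOf] at h
    exact h
  obtain ⟨v₀, hv₀, hDv₀⟩ := hprin
  letI := algebraAlong φ
  haveI := isScalarTower_along φ
  haveI := isIntegral_along φ hφ
  haveI : Module.Finite F F' := hfin
  have hNf : Algebra.norm F f ≠ 0 := Algebra.norm_ne_zero_iff.mpr hf
  -- the norm formula for `n D = div f`
  have hnorm : ∀ w : Place K F, w.ord (Algebra.norm F f) = (n : ℤ) * w.ord v₀ := by
    intro w
    have h1 := hN f hf ((n : ℤ) • (D : Divisor K F')) (fun w' => by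
      rw [Finsupp.smul_apply, smul_eq_mul, hD w']) w
    have h2 : Divisor.pushforward F ((n : ℤ) • (D : Divisor K F')) =
        (n : ℤ) • Divisor.pushforwardAlong φ hφ (D : Divisor K F') := by
      rw [map_zsmul]
      rfl
    rw [h2, Finsupp.smul_apply, smul_eq_mul, hDv₀ w] at h1
    exact h1.symm
  -- `N f / v₀ⁿ` has no zeros and poles, hence is a constant
  have hv₀n : v₀ ^ n ≠ 0 := pow_ne_zero n hv₀
  have hconst : ∀ w : Place K F, w.ord (Algebra.norm F f * (v₀ ^ n)⁻¹) = 0 := by
    intro w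
    rw [w.ord_mul hNf (inv_ne_zero hv₀n), w.ord_inv, hnorm w, ← zpow_natCast, w.ord_zpow]
    ring
  obtain ⟨c, hc⟩ := gdk_const_of_ord_eq_zero ht hconst
  have hc0 : c ≠ 0 := by
    rintro rfl
    rw [map_zero] at hc
    exact mul_ne_zero hNf (inv_ne_zero hv₀n) hc
  obtain ⟨c₁, hc₁⟩ := IsAlgClosed.exists_pow_nat_eq c hn
  have hc₁0 : c₁ ≠ 0 := by
    rintro rfl
    rw [zero_pow hn.ne'] at hc₁
    exact hc0 hc₁.symm
  have hc₁F : algebraMap K F c₁ ≠ 0 := by simpa using hc₁0
  refine ⟨algebraMap K F c₁ * v₀, mul_ne_zero hc₁F hv₀, ?_, fun w => ?_⟩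
  · rw [mul_pow, ← map_pow, hc₁, ← hc, mul_assoc, inv_mul_cancel₀ hv₀n, mul_one]
  · rw [hDv₀ w, w.ord_mul hc₁F hv₀, PlaceOrd.ord_algebraMap, zero_add]

end Along

section Modular

local notation "Qb" => AlgebraicClosure ℚ

variable (N a : ℕ) [NeZero N] [NeZero a]

/-- (`α`) `x = [D] ∈ J₀(N a)`, `n D = div f`, `α_* x = 0` ⟹ `N_α f = vⁿ` with `div v = α_* D`. -/
theorem s35w_norm_alpha {n : ℕ} (hn : 0 < n)
    (D : Divisor.degZero (K := Qb) (F := modularFunctionFieldBar (N * a)))
    (f : modularFunctionFieldBar (N * a)) (hf : f ≠ 0)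
    (hD : ∀ w : Place Qb (modularFunctionFieldBar (N * a)),
      (n : ℤ) * (D : Divisor Qb (modularFunctionFieldBar (N * a))) w = w.ord f)
    (hpush : g37pPush N a (Pic0.mk D) = 0) :
    ∃ v : modularFunctionFieldBar N, v ≠ 0 ∧
      (letI := algebraAlong (heckeAlphaBar Qb N a)
       Algebra.norm (modularFunctionFieldBar N) f = v ^ n) ∧
      ∀ w : Place Qb (modularFunctionFieldBar N),
        Divisor.pushforwardAlong (heckeAlphaBar Qb N a) (gff_alpha_integral N a)
          (D : Divisor Qb (modularFunctionFieldBar (N * a))) w = w.ord v :=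
  s35w_norm_eq_pow_of_pushAlong (heckeAlphaBar Qb N a) (gff_alpha_integral N a)
    (gff_alpha_finite N a) (g37p_alpha_normFormula N a) (isSepGen_jBar N) hn D f hf hD hpush

/-- (`β`) `x = [D] ∈ J₀(N a)`, `n D = div f`, `β_* x = 0` ⟹ `N_β f = vⁿ` with `div v = β_* D`. -/
theorem s35w_norm_beta {n : ℕ} (hn : 0 < n)
    (D : Divisor.degZero (K := Qb) (F := modularFunctionFieldBar (N * a)))
    (f : modularFunctionFieldBar (N * a)) (hf : f ≠ 0)
    (hD : ∀ w : Place Qb (modularFunctionFieldBar (N * a)),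
      (n : ℤ) * (D : Divisor Qb (modularFunctionFieldBar (N * a))) w = w.ord f)
    (hpush : s35wPushBeta N a (Pic0.mk D) = 0) :
    ∃ v : modularFunctionFieldBar N, v ≠ 0 ∧
      (letI := algebraAlong (heckeBetaBar Qb N a)
       Algebra.norm (modularFunctionFieldBar N) f = v ^ n) ∧
      ∀ w : Place Qb (modularFunctionFieldBar N),
        Divisor.pushforwardAlong (heckeBetaBar Qb N a) (gff_beta_integral N a)
          (D : Divisor Qb (modularFunctionFieldBar (N * a))) w = w.ord v :=
  s35w_norm_eq_pow_of_pushAlong (heckeBetaBar Qb N a) (gff_beta_integral N a)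
    (gff_beta_finite N a) (s35w_beta_normFormula N a) (isSepGen_jBar N) hn D f hf hD hpush

/-- the Kummer function of an `n`-torsion class : `x = [D]`, `n D = div f`. -/
theorem s35w_exists_kummer {K F : Type*} [Field K] [Field F] [Algebra K F] {n : ℕ}
    (x : Pic0 K F) (hx : n • x = 0) :
    ∃ (D : Divisor.degZero (K := K) (F := F)) (f : F), x = Pic0.mk D ∧ f ≠ 0 ∧
      ∀ w : Place K F, (n : ℤ) * (D : Divisor K F) w = w.ord f := by
  obtain ⟨D, rfl⟩ := Pic0.mk_surjective x
  have h1 : Pic0.mk (n • D) = 0 := by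
    rw [← hx]
    exact map_nsmul (QuotientAddGroup.mk' _) n D
  have h2 := (QuotientAddGroup.eq_zero_iff _).mp h1
  rw [AddSubgroup.mem_addSubgroupOf] at h2
  obtain ⟨f, hf, hDf⟩ := h2
  refine ⟨D, f, rfl, hf, fun w => ?_⟩
  rw [← hDf w, AddSubgroup.coe_nsmul, Finsupp.smul_apply, nsmul_eq_mul]

/-- THE FUNCTION-LEVEL MEANING OF `a`-NEW : an `n`-torsion class of `J₀(N a)` killed by both
degeneracy push-forwards has a Kummer function whose two norms are `n`-th powers. -/
theorem s35w_new_kummer {n : ℕ} (hn : 0 < n) (x : JZero (N * a)) (hx : n • x = 0)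
    (hα : g37pPush N a x = 0) (hβ : s35wPushBeta N a x = 0) :
    ∃ (D : Divisor.degZero (K := Qb) (F := modularFunctionFieldBar (N * a)))
      (f : modularFunctionFieldBar (N * a)) (vα vβ : modularFunctionFieldBar N),
      x = Pic0.mk D ∧ f ≠ 0 ∧ vα ≠ 0 ∧ vβ ≠ 0 ∧
      (∀ w : Place Qb (modularFunctionFieldBar (N * a)),
        (n : ℤ) * (D : Divisor Qb (modularFunctionFieldBar (N * a))) w = w.ord f) ∧
      (letI := algebraAlong (heckeAlphaBar Qb N a)
       Algebra.norm (modularFunctionFieldBar N) f = vα ^ n) ∧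
      (letI := algebraAlong (heckeBetaBar Qb N a)
       Algebra.norm (modularFunctionFieldBar N) f = vβ ^ n) := by
  obtain ⟨D, f, rfl, hf, hD⟩ := s35w_exists_kummer x hx
  obtain ⟨vα, hvα, hNα, -⟩ := s35w_norm_alpha N a hn D f hf hD hα
  obtain ⟨vβ, hvβ, hNβ, -⟩ := s35w_norm_beta N a hn D f hf hD hβ
  exact ⟨D, f, vα, vβ, rfl, hf, hvα, hvβ, hD, hNα, hNβ⟩

end Modular

end Fermat.Agent.G
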